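import Fermat.Agent.LT.CFT.H861.HeckeOfRay

/-!
# Row LT, tower CFT, helper861 (OFF-MAIN): the Hecke character HAS FINITE ORDER

Strengthening of leaf IDELE for the consumer A2 (`GalSeedC` needs `IsFiniteOrder θ`):

* `exists_exponent861` : a character of finite order of `G_K` (Spec `IsFiniteOrderChar`) has a
  finite exponent `n > 0`;
* `heckeChar_finOrd861` : from `ArtinRayC`, every such `χ` has a Hecke character `θ`
  (`IsHeckeCharOf j χ θ`, Spec VERBATIM) WITH `θ ^ n = 1`.

So the leaf `FinOrdC` of `LT/A2/H38/ArtinSeedSpec.lean` (density of `Kˣ · ∏' K_vˣ`) is not needed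
if the consumer takes `ArtinRayC` (or this statement) instead of `HeckeCharC`.
-/

set_option autoImplicit false
set_option linter.style.haveILetI false

open IsDedekindDomain NumberField

noncomputable section

namespace Fermat.Agent.LT.CFT.H861

open Fermat.Agent.LT.CFT Fermat.Agent.S54

local notation "Qb" => AlgebraicClosure ℚ
local notation "GQ" => (AlgebraicClosure ℚ ≃ₐ[ℚ] AlgebraicClosure ℚ)

variable {K : Type} [Field K] [NumberField K]

/-- A character of finite order of `G_K` has a finite exponent. -/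
theorem exists_exponent861 (j : K →+* Qb) (χ : ↥(galOf j) →* ℂˣ)
    (hχ : IsFiniteOrderChar j χ) : ∃ n : ℕ, 0 < n ∧ ∀ σ : ↥(galOf j), χ σ ^ n = 1 := by
  obtain ⟨F, hF, hχF⟩ := hχ
  haveI := isGalois_algebraicClosure_rat
  haveI : Algebra.IsAlgebraic ℚ Qb := AlgebraicClosure.isAlgebraic ℚ
  haveI : FiniteDimensional ℚ F := hF
  have hopen : IsOpen (F.fixingSubgroup : Set GQ) := F.fixingSubgroup_isOpen
  haveI : Finite (GQ ⧸ F.fixingSubgroup) := Subgroup.quotient_finite_of_isOpen _ hopen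
  haveI : F.fixingSubgroup.FiniteIndex := Subgroup.finiteIndex_of_finite_quotient
  haveI : (F.fixingSubgroup.subgroupOf (galOf j)).FiniteIndex := inferInstance
  have hle : F.fixingSubgroup.subgroupOf (galOf j) ≤ χ.ker := fun σ hσ =>
    (MonoidHom.mem_ker).2 (hχF σ (Subgroup.mem_subgroupOf.1 hσ))
  haveI : χ.ker.FiniteIndex := Subgroup.finiteIndex_of_le hle
  refine ⟨χ.ker.index, Nat.pos_of_ne_zero Subgroup.FiniteIndex.index_ne_zero, fun σ => ?_⟩
  have h := χ.ker.pow_index_mem σ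
  rw [MonoidHom.mem_ker, map_pow] at h
  exact h

/-- **IDELE with finite order.**  From the ray form of Artin reciprocity: every character of
finite order of `G_K` has a Hecke character of finite order. -/
theorem heckeChar_finOrd861 (hArtin : ArtinRayC) (K : Type) [Field K] [NumberField K]
    (j : K →+* Qb) (hTC : TotallyComplex K) (χ : ↥(galOf j) →* ℂˣ)
    (hχ : IsFiniteOrderChar j χ) :
    ∃ θ : (Adl K)ˣ →* ℂˣ, IsHeckeCharOf j χ θ ∧ ∃ n : ℕ, 0 < n ∧ ∀ z : (Adl K)ˣ, θ z ^ n = 1 := by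
  classical
  obtain ⟨𝔣, h𝔣, hray⟩ := hArtin K j hTC χ hχ
  obtain ⟨n, hn, hχn⟩ := exists_exponent861 j χ hχ
  choose frob hfrob using fun v : HeightOneSpectrum (𝓞 K) => exists_isFrobAt861 j v
  have hω : IsRay861 𝔣 (fun v => χ (frob v)) := fun α hα0 hαf =>
    hray frob (fun v _ => hfrob v) α hα0 hαf
  refine ⟨chi861 h𝔣 _ hω, ⟨continuous_chi861 h𝔣 hω, fun x => chi861_pr h𝔣 hω x,
    (Ideal.finite_factors h𝔣).toFinset, fun v hv z hz => ⟨fun h1 => ?_, fun h1 σ hσ => ?_⟩⟩,
    n, hn, fun z => chi861_pow h𝔣 hω n (fun v => hχn (frob v)) z⟩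
  · have hv' : ¬ v.asIdeal ∣ 𝔣 := by
      rw [Set.Finite.mem_toFinset] at hv
      exact hv
    exact chi861_unit h𝔣 hω v hv' z hz.2 h1
  · have hv' : ¬ v.asIdeal ∣ 𝔣 := by
      rw [Set.Finite.mem_toFinset] at hv
      exact hv
    rw [chi861_unif h𝔣 hω v hv' z hz.2 h1]
    exact frob_indep861 h𝔣 j χ hray frob hfrob v (fun h => hv' (Ideal.dvd_iff_le.2 h)) σ hσ

end Fermat.Agent.LT.CFT.H861

end
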