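import Fermat.Agent.LT.CFT.H861.FrobK

/-!
# Row LT, tower CFT, helper861 (OFF-MAIN): existence of Frobenius elements of `G_K`

`exists_frob861`: for every finite place `v` of the number field `K` (embedded in `ℚ̄` by `j`)
there are `σ ∈ Gal(ℚ̄/ℚ)` fixing `j K` and a valuation subring `A` of `ℚ̄` over `v` such that
`A.IsFrobeniusAt σ #(𝓞 K ⧸ v)`.
-/

set_option autoImplicit false
set_option linter.style.haveILetI false

open IsDedekindDomain NumberField
open scoped Pointwise

noncomputable section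

namespace Fermat.Agent.LT.CFT.H861

open Fermat.Agent.S54

local notation "Qb" => AlgebraicClosure ℚ
local notation "GQ" => (AlgebraicClosure ℚ ≃ₐ[ℚ] AlgebraicClosure ℚ)

variable {K : Type} [Field K] [NumberField K] (j : K →+* Qb)

theorem coe_smul_gal861 (g : ↥(gal861 j)) (b : integralClosure ℤ Qb) :
    ((g • b : integralClosure ℤ Qb) : Qb) = (g : GQ) (b : Qb) := rfl

/-- The restricted action of `G_K` on the discrete ring of algebraic integers is continuous. -/
theorem continuousSMul_gal861 :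
    letI : TopologicalSpace (integralClosure ℤ Qb) := ⊥
    ContinuousSMul ↥(gal861 j) (integralClosure ℤ Qb) := by
  letI : TopologicalSpace (integralClosure ℤ Qb) := ⊥
  haveI := continuousSMul_integralClosure
  refine ⟨?_⟩
  have h1 : Continuous fun p : GQ × integralClosure ℤ Qb => p.1 • p.2 := continuous_smul
  have h2 : Continuous fun p : ↥(gal861 j) × integralClosure ℤ Qb =>
      (((p.1 : ↥(gal861 j)) : GQ), p.2) :=
    (continuous_subtype_val.comp continuous_fst).prodMk continuous_snd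
  exact h1.comp h2

/-- A Frobenius lift in `G_K` on the ring of all algebraic integers. -/
theorem exists_frob_lift861 (v : HeightOneSpectrum (𝓞 K)) (A : ValuationSubring Qb)
    (hA : ∀ x : 𝓞 K, x ∈ v.asIdeal ↔ j (algebraMap (𝓞 K) K x) ∈ A.nonunits)
    (p f : ℕ) (hp : p.Prime) (hpv : (p : 𝓞 K) ∈ v.asIdeal)
    (hpow : ∀ x : 𝓞 K, x ^ (p ^ f) - x ∈ v.asIdeal) :
    ∃ σ : GQ, σ ∈ gal861 j ∧
      ∀ x : integralClosure ℤ Qb, σ • x - x ^ (p ^ f) ∈ primeBelow A := by
  haveI := isGalois_algebraicClosure_rat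
  haveI : Algebra.IsAlgebraic ℚ Qb := AlgebraicClosure.isAlgebraic ℚ
  haveI : CompactSpace ↥(gal861 j) := isCompact_iff_compactSpace.1 (isClosed_gal861 j).isCompact
  haveI := primeBelow_isPrime A
  have hpQ : (p : integralClosure ℤ Qb) ∈ primeBelow A := by
    rw [mem_primeBelow]
    have h := (hA (p : 𝓞 K)).1 hpv
    simpa using h
  have hfix : ∀ a : integralClosure ℤ Qb, (∀ g : ↥(gal861 j), g • a = a) →
      a ^ (p ^ f) - a ∈ primeBelow A := by
    intro a ha
    have h1 : (a : Qb) ∈ IntermediateField.fixedField (gal861 j) := by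
      rw [IntermediateField.mem_fixedField_iff]
      intro g hg
      exact congrArg Subtype.val (ha ⟨g, hg⟩)
    rw [gal861, InfiniteGalois.fixedField_fixingSubgroup, mem_imField861] at h1
    obtain ⟨x, hx⟩ := h1
    have hxint : IsIntegral ℤ x := by
      have h2 : IsIntegral ℤ (j.toRatAlgHom.toRingHom.toIntAlgHom x) := by
        show IsIntegral ℤ (j x)
        rw [hx]; exact a.2
      exact (isIntegral_algHom_iff (j.toRatAlgHom.toRingHom.toIntAlgHom)
        (j.injective)).1 h2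
    let x₀ : 𝓞 K := IsIntegralClosure.mk' (𝓞 K) x hxint
    have hx₀ : algebraMap (𝓞 K) K x₀ = x := IsIntegralClosure.algebraMap_mk' (𝓞 K) x hxint
    have h3 := (hA (x₀ ^ (p ^ f) - x₀)).1 (hpow x₀)
    rw [mem_primeBelow]
    have e : ((a ^ (p ^ f) - a : integralClosure ℤ Qb) : Qb)
        = j (algebraMap (𝓞 K) K (x₀ ^ (p ^ f) - x₀)) := by
      rw [map_sub, map_pow, hx₀, map_sub, map_pow, hx]
      rfl
    rw [e]
    exact h3
  have hsurj : ∀ b : integralClosure ℤ Qb, ∃ c : integralClosure ℤ Qb,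
      c ^ (p ^ f) - b ∈ primeBelow A := by
    intro b
    have hpos : 0 < p ^ f := pow_pos hp.pos f
    obtain ⟨c, hc⟩ := IsAlgClosed.exists_pow_nat_eq (b : Qb) hpos
    have hcint : IsIntegral ℤ c := by
      have hb : IsIntegral ℤ (c ^ (p ^ f)) := hc ▸ b.2
      exact IsIntegral.of_pow hpos hb
    refine ⟨⟨c, hcint⟩, ?_⟩
    have : (⟨c, hcint⟩ : integralClosure ℤ Qb) ^ (p ^ f) - b = 0 := by
      rw [sub_eq_zero]
      exact Subtype.ext hc
    rw [this]
    exact Ideal.zero_mem _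
  obtain ⟨σ, hσ⟩ := exists_frob_abstract861 (G := ↥(gal861 j)) (continuousSMul_gal861 j)
    (primeBelow A) p hp hpQ f hfix hsurj
  exact ⟨(σ : GQ), σ.2, fun x => hσ x⟩

/-- **Existence of Frobenius elements of `G_K` at every finite place of `K`.** -/
theorem exists_frob861 (v : HeightOneSpectrum (𝓞 K)) :
    ∃ (σ : GQ) (A : ValuationSubring Qb), (∀ x : K, σ (j x) = j x) ∧
      (∀ x : 𝓞 K, x ∈ v.asIdeal ↔ j (algebraMap (𝓞 K) K x) ∈ A.nonunits) ∧
      A.IsFrobeniusAt σ (Nat.card (𝓞 K ⧸ v.asIdeal)) := by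
  have : Algebra.IsAlgebraic ℚ Qb := AlgebraicClosure.isAlgebraic ℚ
  obtain ⟨A, hA⟩ := exists_valuationSubring_under861 j v
  obtain ⟨p, f, hp, hpv, hcard, hpow⟩ := exists_card_eq_pow861 v
  obtain ⟨σ, hσG, hσF⟩ := exists_frob_lift861 j v A hA p f hp hpv hpow
  have hAp : A.LiesOverPrime p := by
    have h := (hA (p : 𝓞 K)).1 hpv
    simpa [ValuationSubring.LiesOverPrime] using h
  have := primeBelow_isPrime A
  have hq0 : p ^ f ≠ 0 := pow_ne_zero _ hp.ne_zero
  have hσQ : ∀ x, σ • x ∈ primeBelow A ↔ x ∈ primeBelow A := by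
    intro x
    constructor
    · intro h
      have h1 : x ^ (p ^ f) ∈ primeBelow A := by
        have h2 := Ideal.sub_mem _ h (hσF x)
        simpa using h2
      exact Ideal.IsPrime.mem_of_pow_mem inferInstance _ h1
    · intro h
      have h1 : x ^ (p ^ f) ∈ primeBelow A := Ideal.pow_mem_of_mem _ h _ (Nat.pos_of_ne_zero hq0)
      have h2 := Ideal.add_mem _ (hσF x) h1
      simpa using h2
  have hσinvQ : ∀ x, σ⁻¹ • x ∈ primeBelow A ↔ x ∈ primeBelow A := by
    intro y
    rw [← hσQ (σ⁻¹ • y)]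
    simp
  have key : ∀ τ : GQ, (∀ x, τ • x ∈ primeBelow A ↔ x ∈ primeBelow A) → ∀ x ∈ A, τ x ∈ A := by
    intro τ hτ x hx
    obtain ⟨b, s, hb, hs, hsA, hxs⟩ := (mem_valuationSubring_iff A p hp hAp x).mp hx
    refine (mem_valuationSubring_iff A p hp hAp (τ x)).mpr
      ⟨τ b, τ s, hb.map τ, hs.map τ, ?_, ?_⟩
    · exact (hτ ⟨s, hs⟩).not.mpr hsA
    · rw [← map_mul, hxs]
  have hσA : σ ∈ A.decompositionSubgroup ℚ := by
    rw [MulAction.mem_stabilizer_iff]
    ext x
    rw [ValuationSubring.mem_smul_pointwise_iff_exists]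
    constructor
    · rintro ⟨s, hs, rfl⟩
      exact key σ hσQ s hs
    · intro hx
      exact ⟨σ⁻¹ • x, key σ⁻¹ hσinvQ x hx, by simp⟩
  refine ⟨σ, A, (mem_gal861_iff j σ).1 hσG, hA, hσA, ?_⟩
  rw [hcard]
  intro x
  obtain ⟨a, rfl⟩ := IsLocalRing.residue_surjective x
  obtain ⟨b, s, hb, hs, hsA, hxs⟩ := (mem_valuationSubring_iff A p hp hAp a).mp a.2
  have hbA : b ∈ A := isIntegral_mem_valuationSubring A hb
  have hsA' : s ∈ A := isIntegral_mem_valuationSubring A hs
  have hint : ∀ (y : Qb) (hy : IsIntegral ℤ y),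
      (⟨σ, hσA⟩ : A.decompositionSubgroup ℚ) •
        IsLocalRing.residue A ⟨y, isIntegral_mem_valuationSubring A hy⟩ =
      (IsLocalRing.residue A ⟨y, isIntegral_mem_valuationSubring A hy⟩) ^ (p ^ f) := by
    intro y hy
    rw [← IsLocalRing.ResidueField.residue_smul, ← map_pow, ← sub_eq_zero, ← map_sub,
      IsLocalRing.residue_eq_zero_iff, ← ValuationSubring.coe_mem_nonunits_iff]
    exact hσF ⟨y, hy⟩
  have h1 : IsLocalRing.residue A a * IsLocalRing.residue A ⟨s, hsA'⟩ =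
      IsLocalRing.residue A ⟨b, hbA⟩ := by
    rw [← map_mul]
    congr 1
    exact Subtype.ext hxs
  have h2 : IsLocalRing.residue A ⟨s, hsA'⟩ ≠ 0 := by
    rw [Ne, IsLocalRing.residue_eq_zero_iff, ← ValuationSubring.coe_mem_nonunits_iff]
    exact hsA
  have h3 := congrArg (fun z => (⟨σ, hσA⟩ : A.decompositionSubgroup ℚ) • z) h1
  simp only [smul_mul'] at h3
  rw [hint s hs, hint b hb, ← h1, mul_pow] at h3
  exact mul_right_cancel₀ (pow_ne_zero _ h2) h3

end Fermat.Agent.LT.CFT.H861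

end
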