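import Fermat.Agent.LT.CFT.H861.RayFrac

/-!
# Row LT, tower CFT, helper861 (OFF-MAIN): RAY ⇒ IDELE

Mathlib only.  The passage from an ideal-theoretic ray class character to an idele class
character of `𝔸ˣ`, `𝔸 = NumberField.AdeleRing (𝓞 K) K` (= `A0.Adl K` of `LT/H556/A0.lean`).

`K` is ANY number field (no condition at the infinite places is needed: the ray condition
`IsRay861 𝔣 ω` has no sign condition, so the character is trivial on `K_∞ˣ`; for Artin symbols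
such an `𝔣` exists when `K` is totally complex).

Main results (`A` any commutative group; topology only for the continuity statement):

* `chi861 h𝔣 ω hray : 𝔸ˣ →* A`;
* `chi861_pr`        : trivial on the principal ideles;
* `chi861_of_inU`    : equal to the content `∏ᶠ v, ω v ^ ord_v x` on the ideles `≡ 1 mod 𝔣`;
* `chi861_at`        : for `v ∤ 𝔣` and an idele `z` whose finite components away from `v` are `1`:
  `χ z = ω v ^ ord_v z`; in particular `chi861_unit` (`= 1` on local units) and `chi861_unif`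
  (`= ω v` on local uniformisers);
* `chi861_pow`       : `χ ^ n = 1` if `ω ^ n = 1`;
* `continuous_chi861`: `χ` is continuous (it is trivial on an open subgroup);
* `exists_ideleClassChar861` : the summary.
-/

set_option autoImplicit false

open IsDedekindDomain NumberField

noncomputable section

namespace Fermat.Agent.LT.CFT.H861

variable {K : Type} [Field K] [NumberField K]
variable {A : Type*} [CommGroup A]

/-- A chosen `γ ∈ Kˣ` with `γ⁻¹ x ≡ 1 mod 𝔣`. -/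
def gam861 {𝔣 : Ideal (𝓞 K)} (h𝔣 : 𝔣 ≠ ⊥) (x : (AdeleRing (𝓞 K) K)ˣ) : Kˣ :=
  Classical.choose (exists_pr_mul_inU861 h𝔣 x)

theorem gam861_spec {𝔣 : Ideal (𝓞 K)} (h𝔣 : 𝔣 ≠ ⊥) (x : (AdeleRing (𝓞 K) K)ˣ) :
    InU861 𝔣 ((pr861 K (gam861 h𝔣 x))⁻¹ * x) :=
  Classical.choose_spec (exists_pr_mul_inU861 h𝔣 x)

/-- The underlying function of the idele class character. -/
def chiFun861 {𝔣 : Ideal (𝓞 K)} (h𝔣 : 𝔣 ≠ ⊥) (ω : HeightOneSpectrum (𝓞 K) → A)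
    (x : (AdeleRing (𝓞 K) K)ˣ) : A :=
  cont861 ω ((pr861 K (gam861 h𝔣 x))⁻¹ * x)

theorem chiFun861_eq {𝔣 : Ideal (𝓞 K)} (h𝔣 : 𝔣 ≠ ⊥) {ω : HeightOneSpectrum (𝓞 K) → A}
    (hray : IsRay861 𝔣 ω) (x : (AdeleRing (𝓞 K) K)ˣ) (γ : Kˣ)
    (hγ : InU861 𝔣 ((pr861 K γ)⁻¹ * x)) :
    chiFun861 h𝔣 ω x = cont861 ω ((pr861 K γ)⁻¹ * x) := by
  have h0 := gam861_spec h𝔣 x
  have e : (pr861 K (gam861 h𝔣 x))⁻¹ * x
      = pr861 K ((gam861 h𝔣 x)⁻¹ * γ) * ((pr861 K γ)⁻¹ * x) := by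
    rw [map_mul, map_inv]
    rw [mul_assoc, mul_inv_cancel_left]
  have hU : InU861 𝔣 (pr861 K ((gam861 h𝔣 x)⁻¹ * γ)) := by
    have h1 := h0.mul hγ.inv
    have e2 : (pr861 K (gam861 h𝔣 x))⁻¹ * x * ((pr861 K γ)⁻¹ * x)⁻¹
        = pr861 K ((gam861 h𝔣 x)⁻¹ * γ) := by
      rw [map_mul, map_inv, mul_inv, inv_inv]
      rw [mul_mul_mul_comm, mul_inv_cancel, mul_one]
    rwa [e2] at h1
  rw [chiFun861, e, map_mul, cont861_pr_eq_one_of_inU h𝔣 hray _ hU, one_mul]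

/-- **The idele class character of the ray class character `ω` modulo `𝔣`.** -/
def chi861 {𝔣 : Ideal (𝓞 K)} (h𝔣 : 𝔣 ≠ ⊥) (ω : HeightOneSpectrum (𝓞 K) → A)
    (hray : IsRay861 𝔣 ω) : (AdeleRing (𝓞 K) K)ˣ →* A where
  toFun := chiFun861 h𝔣 ω
  map_one' := by
    have h1 : InU861 𝔣 ((pr861 K (1 : Kˣ))⁻¹ * (1 : (AdeleRing (𝓞 K) K)ˣ)) := by
      rw [map_one, inv_one, one_mul]; exact inU861_one 𝔣
    rw [chiFun861_eq h𝔣 hray 1 1 h1, map_one, inv_one, one_mul, map_one]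
  map_mul' x y := by
    have hx := gam861_spec h𝔣 x
    have hy := gam861_spec h𝔣 y
    have e : (pr861 K (gam861 h𝔣 x * gam861 h𝔣 y))⁻¹ * (x * y)
        = ((pr861 K (gam861 h𝔣 x))⁻¹ * x) * ((pr861 K (gam861 h𝔣 y))⁻¹ * y) := by
      rw [map_mul, mul_inv, mul_mul_mul_comm]
    have hxy : InU861 𝔣 ((pr861 K (gam861 h𝔣 x * gam861 h𝔣 y))⁻¹ * (x * y)) := by
      rw [e]; exact hx.mul hy
    rw [chiFun861_eq h𝔣 hray (x * y) _ hxy, e, map_mul]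
    rfl

theorem chi861_apply_of {𝔣 : Ideal (𝓞 K)} (h𝔣 : 𝔣 ≠ ⊥) {ω : HeightOneSpectrum (𝓞 K) → A}
    (hray : IsRay861 𝔣 ω) (x : (AdeleRing (𝓞 K) K)ˣ) (γ : Kˣ)
    (hγ : InU861 𝔣 ((pr861 K γ)⁻¹ * x)) :
    chi861 h𝔣 ω hray x = cont861 ω ((pr861 K γ)⁻¹ * x) :=
  chiFun861_eq h𝔣 hray x γ hγ

/-- `χ` is trivial on the principal ideles. -/
theorem chi861_pr {𝔣 : Ideal (𝓞 K)} (h𝔣 : 𝔣 ≠ ⊥) {ω : HeightOneSpectrum (𝓞 K) → A}
    (hray : IsRay861 𝔣 ω) (γ : Kˣ) : chi861 h𝔣 ω hray (pr861 K γ) = 1 := by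
  have h1 : InU861 𝔣 ((pr861 K γ)⁻¹ * pr861 K γ) := by
    rw [inv_mul_cancel]; exact inU861_one 𝔣
  rw [chi861_apply_of h𝔣 hray _ γ h1, inv_mul_cancel, map_one]

/-- On the ideles `≡ 1 mod 𝔣`, `χ` is the content character. -/
theorem chi861_of_inU {𝔣 : Ideal (𝓞 K)} (h𝔣 : 𝔣 ≠ ⊥) {ω : HeightOneSpectrum (𝓞 K) → A}
    (hray : IsRay861 𝔣 ω) (x : (AdeleRing (𝓞 K) K)ˣ) (hx : InU861 𝔣 x) :
    chi861 h𝔣 ω hray x = cont861 ω x := by
  have h1 : InU861 𝔣 ((pr861 K (1 : Kˣ))⁻¹ * x) := by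
    rw [map_one, inv_one, one_mul]; exact hx
  rw [chi861_apply_of h𝔣 hray _ 1 h1, map_one, inv_one, one_mul]

theorem ord861_eq_zero_of_fc_eq_one (w : HeightOneSpectrum (𝓞 K)) (z : (AdeleRing (𝓞 K) K)ˣ)
    (h : fc861 w z = 1) : ord861 w z = 0 := by
  rw [ord861_eq_zero_iff, h, map_one]

/-- The value of `χ` on an idele supported at one place `v ∤ 𝔣`. -/
theorem chi861_at {𝔣 : Ideal (𝓞 K)} (h𝔣 : 𝔣 ≠ ⊥) {ω : HeightOneSpectrum (𝓞 K) → A}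
    (hray : IsRay861 𝔣 ω) (v : HeightOneSpectrum (𝓞 K)) (hv : ¬ v.asIdeal ∣ 𝔣)
    (z : (AdeleRing (𝓞 K) K)ˣ) (hz : ∀ w : HeightOneSpectrum (𝓞 K), w ≠ v → fc861 w z = 1) :
    chi861 h𝔣 ω hray z = ω v ^ ord861 v z := by
  have hU : InU861 𝔣 z := by
    intro w hw
    have hwv : w ≠ v := by
      rintro rfl
      exact hv ((fexp861_ne_zero_iff h𝔣 w).1 hw)
    rw [hz w hwv, sub_self, map_zero]
    exact zero_le
  rw [chi861_of_inU h𝔣 hray z hU]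
  exact cont861_eq_single ω z v fun w hw => ord861_eq_zero_of_fc_eq_one w z (hz w hw)

/-- `χ` is unramified at `v ∤ 𝔣`. -/
theorem chi861_unit {𝔣 : Ideal (𝓞 K)} (h𝔣 : 𝔣 ≠ ⊥) {ω : HeightOneSpectrum (𝓞 K) → A}
    (hray : IsRay861 𝔣 ω) (v : HeightOneSpectrum (𝓞 K)) (hv : ¬ v.asIdeal ∣ 𝔣)
    (z : (AdeleRing (𝓞 K) K)ˣ) (hz : ∀ w : HeightOneSpectrum (𝓞 K), w ≠ v → fc861 w z = 1)
    (hzv : Valued.v (fc861 v z) = 1) : chi861 h𝔣 ω hray z = 1 := by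
  rw [chi861_at h𝔣 hray v hv z hz, (ord861_eq_zero_iff v z).2 hzv, zpow_zero]

/-- `χ (ϖ_v) = ω v` at `v ∤ 𝔣`. -/
theorem chi861_unif {𝔣 : Ideal (𝓞 K)} (h𝔣 : 𝔣 ≠ ⊥) {ω : HeightOneSpectrum (𝓞 K) → A}
    (hray : IsRay861 𝔣 ω) (v : HeightOneSpectrum (𝓞 K)) (hv : ¬ v.asIdeal ∣ 𝔣)
    (z : (AdeleRing (𝓞 K) K)ˣ) (hz : ∀ w : HeightOneSpectrum (𝓞 K), w ≠ v → fc861 w z = 1)
    (hzv : Valued.v (fc861 v z) = WithZero.exp (-1 : ℤ)) : chi861 h𝔣 ω hray z = ω v := by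
  rw [chi861_at h𝔣 hray v hv z hz, ord861_eq_of_val v z 1 hzv, zpow_one]

/-- The content character has exponent `n` if `ω` has. -/
theorem cont861_pow (ω : HeightOneSpectrum (𝓞 K) → A) (n : ℕ) (hω : ∀ v, ω v ^ n = 1)
    (x : (AdeleRing (𝓞 K) K)ˣ) : cont861 ω x ^ n = 1 := by
  rw [cont861_apply, finprod_pow (hasFiniteMulSupport_zpow_ord861 ω x)]
  have : ∀ v : HeightOneSpectrum (𝓞 K), (ω v ^ ord861 v x) ^ n = 1 := fun v => by
    rw [← zpow_natCast, ← zpow_mul, mul_comm, zpow_mul, zpow_natCast, hω v, one_zpow]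
  simp [this]

/-- `χ` has exponent `n` if `ω` has. -/
theorem chi861_pow {𝔣 : Ideal (𝓞 K)} (h𝔣 : 𝔣 ≠ ⊥) {ω : HeightOneSpectrum (𝓞 K) → A}
    (hray : IsRay861 𝔣 ω) (n : ℕ) (hω : ∀ v, ω v ^ n = 1) (x : (AdeleRing (𝓞 K) K)ˣ) :
    chi861 h𝔣 ω hray x ^ n = 1 := by
  rw [chi861_apply_of h𝔣 hray x _ (gam861_spec h𝔣 x)]
  exact cont861_pow ω n hω _

/-! ### Continuity -/

/-- The open subgroup of the ideles on which `χ` is trivial (as a set). -/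
def openU861 (𝔣 : Ideal (𝓞 K)) : Set (AdeleRing (𝓞 K) K)ˣ :=
  {x | (∀ v : HeightOneSpectrum (𝓞 K), Valued.v (fc861 v x) ≤ 1) ∧
    (∀ v : HeightOneSpectrum (𝓞 K), Valued.v (fc861 v x⁻¹) ≤ 1) ∧
    ∀ v : HeightOneSpectrum (𝓞 K), fexp861 𝔣 v ≠ 0 →
      Valued.v (fc861 v x - 1) ≤ WithZero.exp (-(fexp861 𝔣 v : ℤ))}

theorem one_mem_openU861 (𝔣 : Ideal (𝓞 K)) : (1 : (AdeleRing (𝓞 K) K)ˣ) ∈ openU861 𝔣 := by
  refine ⟨fun v => ?_, fun v => ?_, fun v _ => ?_⟩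
  · rw [fc861_one, map_one]
  · rw [inv_one, fc861_one, map_one]
  · rw [fc861_one, sub_self, map_zero]; exact zero_le

theorem continuous_snd_val861 :
    Continuous fun x : (AdeleRing (𝓞 K) K)ˣ => ((x : AdeleRing (𝓞 K) K)).2 :=
  continuous_snd.comp Units.continuous_val

theorem continuous_snd_inv861 :
    Continuous fun x : (AdeleRing (𝓞 K) K)ˣ =>
      (((x⁻¹ : (AdeleRing (𝓞 K) K)ˣ) : AdeleRing (𝓞 K) K)).2 :=
  continuous_snd.comp Units.continuous_coe_inv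

theorem isOpen_integral861 :
    IsOpen {f : FiniteAdeleRing (𝓞 K) K | ∀ v : HeightOneSpectrum (𝓞 K), Valued.v (f v) ≤ 1} :=
  RestrictedProduct.isOpen_forall_mem
    (A := fun v : HeightOneSpectrum (𝓞 K) => ((v.adicCompletionIntegers K : Set (v.adicCompletion K))))
    (fun v => Valued.isOpen_valuationSubring (v.adicCompletion K))

theorem isOpen_openU861 {𝔣 : Ideal (𝓞 K)} (h𝔣 : 𝔣 ≠ ⊥) : IsOpen (openU861 𝔣) := by
  have h1 : IsOpen {x : (AdeleRing (𝓞 K) K)ˣ |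
      ∀ v : HeightOneSpectrum (𝓞 K), Valued.v (fc861 v x) ≤ 1} :=
    isOpen_integral861.preimage continuous_snd_val861
  have h2 : IsOpen {x : (AdeleRing (𝓞 K) K)ˣ |
      ∀ v : HeightOneSpectrum (𝓞 K), Valued.v (fc861 v x⁻¹) ≤ 1} :=
    isOpen_integral861.preimage continuous_snd_inv861
  have h3 : IsOpen {x : (AdeleRing (𝓞 K) K)ˣ | ∀ v : HeightOneSpectrum (𝓞 K), fexp861 𝔣 v ≠ 0 →
      Valued.v (fc861 v x - 1) ≤ WithZero.exp (-(fexp861 𝔣 v : ℤ))} := by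
    have e : {x : (AdeleRing (𝓞 K) K)ˣ | ∀ v : HeightOneSpectrum (𝓞 K), fexp861 𝔣 v ≠ 0 →
        Valued.v (fc861 v x - 1) ≤ WithZero.exp (-(fexp861 𝔣 v : ℤ))}
        = ⋂ v ∈ {v : HeightOneSpectrum (𝓞 K) | fexp861 𝔣 v ≠ 0},
          {x : (AdeleRing (𝓞 K) K)ˣ |
            Valued.v (fc861 v x - 1) ≤ WithZero.exp (-(fexp861 𝔣 v : ℤ))} := by
      ext x; simp
    rw [e]
    refine (finite_fexp861_ne_zero h𝔣).isOpen_biInter fun v _ => ?_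
    have hc : Continuous fun x : (AdeleRing (𝓞 K) K)ˣ => fc861 v x :=
      (RestrictedProduct.continuous_eval v).comp continuous_snd_val861
    exact (isOpen_ball861 v 1 (fexp861 𝔣 v : ℤ)).preimage hc
  exact h1.inter (h2.inter h3)

theorem chi861_eq_one_of_mem_openU {𝔣 : Ideal (𝓞 K)} (h𝔣 : 𝔣 ≠ ⊥)
    {ω : HeightOneSpectrum (𝓞 K) → A} (hray : IsRay861 𝔣 ω) (x : (AdeleRing (𝓞 K) K)ˣ)
    (hx : x ∈ openU861 𝔣) : chi861 h𝔣 ω hray x = 1 := by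
  obtain ⟨h1, h2, h3⟩ := hx
  rw [chi861_of_inU h𝔣 hray x h3]
  refine cont861_eq_one_of_ord ω x fun v => ?_
  rw [ord861_eq_zero_iff]
  refine le_antisymm (h1 v) ?_
  have h4 := h2 v
  rw [fc861_inv, map_inv₀] at h4
  have hne := val_fc861_ne_zero v x
  rwa [inv_le_one₀ (zero_lt_iff.2 hne)] at h4

/-- `χ` is continuous. -/
theorem continuous_chi861 [TopologicalSpace A] [ContinuousMul A] {𝔣 : Ideal (𝓞 K)}
    (h𝔣 : 𝔣 ≠ ⊥) {ω : HeightOneSpectrum (𝓞 K) → A} (hray : IsRay861 𝔣 ω) :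
    Continuous (chi861 h𝔣 ω hray) := by
  apply continuous_of_continuousAt_one
  have hev : (fun _ : (AdeleRing (𝓞 K) K)ˣ => (1 : A)) =ᶠ[nhds 1] chi861 h𝔣 ω hray :=
    Filter.mem_of_superset ((isOpen_openU861 h𝔣).mem_nhds (one_mem_openU861 𝔣))
      fun x hx => (chi861_eq_one_of_mem_openU h𝔣 hray x hx).symm
  exact continuousAt_const.congr hev

/-- **RAY ⇒ IDELE, summary.**  A function `ω` on the finite places satisfying the ray condition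
modulo `𝔣 ≠ ⊥` is the restriction to the places `v ∤ 𝔣` of a continuous idele class character. -/
theorem exists_ideleClassChar861 [TopologicalSpace A] [ContinuousMul A]
    (𝔣 : Ideal (𝓞 K)) (h𝔣 : 𝔣 ≠ ⊥) (ω : HeightOneSpectrum (𝓞 K) → A) (hray : IsRay861 𝔣 ω) :
    ∃ χ : (AdeleRing (𝓞 K) K)ˣ →* A, Continuous χ ∧
      (∀ γ : Kˣ, χ (Units.map (algebraMap K (AdeleRing (𝓞 K) K)).toMonoidHom γ) = 1) ∧
      (∀ n : ℕ, (∀ v, ω v ^ n = 1) → ∀ x, χ x ^ n = 1) ∧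
      ∀ v : HeightOneSpectrum (𝓞 K), ¬ v.asIdeal ∣ 𝔣 → ∀ z : (AdeleRing (𝓞 K) K)ˣ,
        (∀ w : HeightOneSpectrum (𝓞 K), w ≠ v → (z : AdeleRing (𝓞 K) K).2 w = 1) →
        (Valued.v ((z : AdeleRing (𝓞 K) K).2 v) = 1 → χ z = 1) ∧
        (Valued.v ((z : AdeleRing (𝓞 K) K).2 v) = WithZero.exp (-1 : ℤ) → χ z = ω v) :=
  ⟨chi861 h𝔣 ω hray, continuous_chi861 h𝔣 hray, fun γ => chi861_pr h𝔣 hray γ,
    fun n hω x => chi861_pow h𝔣 hray n hω x,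
    fun v hv z hz => ⟨fun h => chi861_unit h𝔣 hray v hv z hz h,
      fun h => chi861_unif h𝔣 hray v hv z hz h⟩⟩

end Fermat.Agent.LT.CFT.H861

end
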