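import Fermat.Agent.LT.CFT.Spec
import Fermat.Agent.LT.CFT.H861.RayChar
import Fermat.Agent.LT.CFT.H861.FrobK2

/-!
# Row LT, tower CFT, leaf IDELE (helper861, OFF-MAIN): `HeckeOfRayC`

`heckeOfRay861 : Fermat.Agent.LT.CFT.HeckeOfRayC` (= `ArtinRayC → HeckeCharC`), VERBATIM against
`Fermat/Agent/LT/CFT/Spec.lean` of helper53 (origin/helper53@aa4e97721, byte-identical copy).

Ingredients: `exists_frob861` (Frobenius elements of `G_K` exist at every finite place),
`chi861` (RAY ⇒ IDELE, Mathlib only), and the independence of `χ(Frob_v)` of the choice of the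
Frobenius element at `v ∤ 𝔣`, which follows from the ray statement itself (`frob_indep861`).
The hypothesis `TotallyComplex K` is not used by this leaf.
-/

set_option autoImplicit false

open IsDedekindDomain NumberField

noncomputable section

namespace Fermat.Agent.LT.CFT.H861

open Fermat.Agent.LT.CFT

local notation "Qb" => AlgebraicClosure ℚ
local notation "GQ" => (AlgebraicClosure ℚ ≃ₐ[ℚ] AlgebraicClosure ℚ)

variable {K : Type} [Field K] [NumberField K]

/-- Frobenius elements exist, in the vocabulary of the tower Spec. -/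
theorem exists_isFrobAt861 (j : K →+* Qb) (v : HeightOneSpectrum (𝓞 K)) :
    ∃ σ : ↥(galOf j), IsFrobAt j v (σ : GQ) := by
  obtain ⟨σ, A, hσ, hA, hF⟩ := exists_frob861 j v
  exact ⟨⟨σ, hσ⟩, hσ, A, hA, hF⟩

/-- An integer `α ≡ 1 mod 𝔣` of exact order `1` at a place `v ∤ 𝔣`. -/
theorem exists_unif_ray861 {𝔣 : Ideal (𝓞 K)} (h𝔣 : 𝔣 ≠ ⊥) (v : HeightOneSpectrum (𝓞 K))
    (hv : ¬ 𝔣 ≤ v.asIdeal) :
    ∃ α : 𝓞 K, α ≠ 0 ∧ α - 1 ∈ 𝔣 ∧ ordAt v α = 1 := by
  classical
  have hv0 : fexp861 𝔣 v = 0 := by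
    by_contra h
    exact hv (Ideal.le_of_dvd ((fexp861_ne_zero_iff h𝔣 v).1 h))
  obtain ⟨π, hπ⟩ := v.intValuation_exists_uniformizer
  obtain ⟨α, hα0, hα⟩ := exists_int_approx861
    (insert v (finite_fexp861_ne_zero h𝔣).toFinset)
    (fun w => if w = v then 2 else fexp861 𝔣 w) (fun w => if w = v then π else 1)
  refine ⟨α, hα0, ?_, ?_⟩
  · rw [mem_iff_forall_intValuation_le861 h𝔣]
    intro w
    by_cases hw : fexp861 𝔣 w = 0
    · rw [hw]
      simpa using w.intValuation_le_one (α - 1)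
    · have hwv : w ≠ v := by
        rintro rfl
        exact hw hv0
      have hws : w ∈ insert v (finite_fexp861_ne_zero h𝔣).toFinset := by
        rw [Finset.mem_insert, Set.Finite.mem_toFinset]
        exact Or.inr hw
      have h1 := hα w hws
      simpa [hwv] using h1
  · have h1 := hα v (Finset.mem_insert_self _ _)
    simp only [if_true] at h1
    have h2 : v.intValuation (α - π) < v.intValuation π := by
      rw [hπ]
      refine lt_of_le_of_lt h1 ?_
      rw [WithZero.exp_lt_exp]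
      norm_num
    have h3 := Valuation.map_add_eq_of_lt_right v.intValuation h2
    rw [sub_add_cancel, hπ, v.intValuation_if_neg hα0] at h3
    have h4 := WithZero.exp_injective h3
    have h5 : ((Associates.mk v.asIdeal).count (Associates.mk (Ideal.span {α})).factors : ℤ)
        = 1 := by linarith
    exact_mod_cast h5

theorem ordAt_eq_ord861 (w : HeightOneSpectrum (𝓞 K)) (α : 𝓞 K) (hα : α ≠ 0) :
    (ordAt w α : ℤ) = ord861 w (pr861 K (unitOf861 α hα)) :=
  (ord861_pr_unitOf w α hα).symm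

theorem hasFiniteMulSupport_pow_ordAt861 (ω : HeightOneSpectrum (𝓞 K) → ℂˣ) (α : 𝓞 K)
    (hα : α ≠ 0) :
    Function.HasFiniteMulSupport fun w : HeightOneSpectrum (𝓞 K) => ω w ^ ordAt w α := by
  have h := hasFiniteMulSupport_zpow_ord861 ω (pr861 K (unitOf861 α hα))
  have e : (fun w : HeightOneSpectrum (𝓞 K) => ω w ^ ordAt w α)
      = fun w => ω w ^ ord861 w (pr861 K (unitOf861 α hα)) := by
    funext w
    rw [← ordAt_eq_ord861 w α hα, zpow_natCast]
  rw [e]
  exact h

/-- The value `χ(Frob_v)` does not depend on the Frobenius element at `v ∤ 𝔣`. -/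
theorem frob_indep861 {𝔣 : Ideal (𝓞 K)} (h𝔣 : 𝔣 ≠ ⊥) (j : K →+* Qb) (χ : ↥(galOf j) →* ℂˣ)
    (hray : RayTrivial j χ 𝔣) (frob : HeightOneSpectrum (𝓞 K) → ↥(galOf j))
    (hfrob : ∀ v : HeightOneSpectrum (𝓞 K), IsFrobAt j v (frob v : GQ))
    (v : HeightOneSpectrum (𝓞 K)) (hv : ¬ 𝔣 ≤ v.asIdeal) (σ : ↥(galOf j))
    (hσ : IsFrobAt j v (σ : GQ)) : χ (frob v) = χ σ := by
  classical
  obtain ⟨α, hα0, hαf, hαv⟩ := exists_unif_ray861 h𝔣 v hv
  set frob' : HeightOneSpectrum (𝓞 K) → ↥(galOf j) := Function.update frob v σ with hfrob'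
  have hfrob'F : ∀ w : HeightOneSpectrum (𝓞 K), IsFrobAt j w (frob' w : GQ) := by
    intro w
    by_cases hw : w = v
    · subst hw
      rw [hfrob', Function.update_self]
      exact hσ
    · rw [hfrob', Function.update_of_ne hw]
      exact hfrob w
  have h1 := hray frob (fun w _ => hfrob w) α hα0 hαf
  have h2 := hray frob' (fun w _ => hfrob'F w) α hα0 hαf
  rw [← mul_finprod_cond_ne v (hasFiniteMulSupport_pow_ordAt861 (fun w => χ (frob w)) α hα0)]
    at h1
  rw [← mul_finprod_cond_ne v (hasFiniteMulSupport_pow_ordAt861 (fun w => χ (frob' w)) α hα0)]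
    at h2
  have h3 : (∏ᶠ (w : HeightOneSpectrum (𝓞 K)) (_ : w ≠ v), χ (frob' w) ^ ordAt w α)
      = ∏ᶠ (w : HeightOneSpectrum (𝓞 K)) (_ : w ≠ v), χ (frob w) ^ ordAt w α := by
    refine finprod_congr fun w => ?_
    refine finprod_congr fun hw => ?_
    rw [hfrob', Function.update_of_ne hw]
  rw [h3, hfrob', Function.update_self, hαv, pow_one] at h2
  rw [hαv, pow_one] at h1
  exact mul_right_cancel (h1.trans h2.symm)

/-- **Leaf IDELE of tower CFT.** -/
theorem heckeOfRay861 : HeckeOfRayC := by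
  intro hArtin K _ _ j hTC χ hχ
  classical
  obtain ⟨𝔣, h𝔣, hray⟩ := hArtin K j hTC χ hχ
  choose frob hfrob using fun v : HeightOneSpectrum (𝓞 K) => exists_isFrobAt861 j v
  have hω : IsRay861 𝔣 (fun v => χ (frob v)) := fun α hα0 hαf =>
    hray frob (fun v _ => hfrob v) α hα0 hαf
  refine ⟨chi861 h𝔣 _ hω, continuous_chi861 h𝔣 hω, fun x => chi861_pr h𝔣 hω x,
    (Ideal.finite_factors h𝔣).toFinset, fun v hv z hz => ⟨fun h1 => ?_, fun h1 σ hσ => ?_⟩⟩
  · have hv' : ¬ v.asIdeal ∣ 𝔣 := by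
      rw [Set.Finite.mem_toFinset] at hv
      exact hv
    exact chi861_unit h𝔣 hω v hv' z hz.2 h1
  · have hv' : ¬ v.asIdeal ∣ 𝔣 := by
      rw [Set.Finite.mem_toFinset] at hv
      exact hv
    rw [chi861_unif h𝔣 hω v hv' z hz.2 h1]
    exact frob_indep861 h𝔣 j χ hray frob hfrob v (fun h => hv' (Ideal.dvd_iff_le.2 h)) σ hσ

end Fermat.Agent.LT.CFT.H861

end
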