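import Fermat.Agent.LT.CFT.H861.Approx

/-!
# Row LT, tower CFT, helper861 (OFF-MAIN): `𝔸ˣ = Kˣ · U_𝔣`

Mathlib only.  `exists_pr_mul_inU861`: for a nonzero ideal `𝔣`, every idele `x` is of the form
`(principal idele of γ) * y` with `y ≡ 1 mod 𝔣` at every place dividing `𝔣`.
-/

set_option autoImplicit false

open IsDedekindDomain NumberField

noncomputable section

namespace Fermat.Agent.LT.CFT.H861

variable {K : Type} [Field K] [NumberField K]

theorem coe_sub861 (v : HeightOneSpectrum (𝓞 K)) (a b : K) :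
    (((a - b : K)) : v.adicCompletion K) = (a : v.adicCompletion K) - (b : v.adicCompletion K) := by
  have h := HeightOneSpectrum.adicCompletion.coe_add K v (a - b) b
  rw [sub_add_cancel] at h
  rw [h, add_sub_cancel_right]

theorem val_coe861 (v : HeightOneSpectrum (𝓞 K)) (a : K) :
    Valued.v ((a : K) : v.adicCompletion K) = v.valuation K a :=
  HeightOneSpectrum.valuedAdicCompletion_eq_valuation' v a

/-- Every idele is a principal idele times an idele `≡ 1 mod 𝔣`. -/
theorem exists_pr_mul_inU861 {𝔣 : Ideal (𝓞 K)} (h𝔣 : 𝔣 ≠ ⊥) (x : (AdeleRing (𝓞 K) K)ˣ) :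
    ∃ γ : Kˣ, InU861 𝔣 ((pr861 K γ)⁻¹ * x) := by
  classical
  set s : Finset (HeightOneSpectrum (𝓞 K)) := (finite_fexp861_ne_zero h𝔣).toFinset with hs
  set M : HeightOneSpectrum (𝓞 K) → ℤ := fun v => (fexp861 𝔣 v : ℤ) + ord861 v x with hM
  have hk : ∀ v : HeightOneSpectrum (𝓞 K), ∃ k : K,
      Valued.v (((k : K) : v.adicCompletion K) - fc861 v x) ≤ WithZero.exp (-(M v)) :=
    fun v => exists_coe_approx861 v (fc861 v x) (M v)
  choose k hk using hk
  obtain ⟨γ, hγ0, hγ⟩ := exists_approx861 s M k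
  refine ⟨Units.mk0 γ hγ0, fun v hv => ?_⟩
  have hvs : v ∈ s := by
    rw [hs, Set.Finite.mem_toFinset]; exact hv
  -- `γ` is close to `x_v`
  have h1 : Valued.v (((γ : K) : v.adicCompletion K) - fc861 v x) ≤ WithZero.exp (-(M v)) := by
    have e : ((γ : K) : v.adicCompletion K) - fc861 v x
        = (((γ - k v : K)) : v.adicCompletion K) + (((k v : K) : v.adicCompletion K) - fc861 v x) := by
      rw [coe_sub861]; ring
    rw [e]
    refine le_trans (Valuation.map_add _ _ _) (max_le ?_ (hk v))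
    rw [val_coe861]
    exact hγ v hvs
  have hlt : (WithZero.exp (-(M v)) : WithZero (Multiplicative ℤ)) < Valued.v (fc861 v x) := by
    rw [val_fc861_eq_exp, WithZero.exp_lt_exp, hM]
    have : 0 < (fexp861 𝔣 v : ℤ) := by exact_mod_cast Nat.pos_of_ne_zero hv
    simp only
    linarith
  -- hence `v(γ) = v(x_v)`
  have h2 : Valued.v ((γ : K) : v.adicCompletion K) = Valued.v (fc861 v x) := by
    have h3 := Valuation.map_add_eq_of_lt_right (Valued.v : Valuation (v.adicCompletion K) _)
      (lt_of_le_of_lt h1 hlt)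
    rw [sub_add_cancel] at h3
    exact h3
  have hγv : ((γ : K) : v.adicCompletion K) ≠ 0 := by
    intro h0
    rw [h0, map_zero] at h2
    exact val_fc861_ne_zero v x h2.symm
  have e2 : fc861 v ((pr861 K (Units.mk0 γ hγ0))⁻¹ * x) - 1
      = -((((γ : K) : v.adicCompletion K) - fc861 v x) * (((γ : K) : v.adicCompletion K))⁻¹) := by
    rw [fc861_mul, fc861_inv, fc861_pr, Units.val_mk0]
    field_simp
    ring
  rw [e2, Valuation.map_neg, map_mul, map_inv₀, h2, val_fc861_eq_exp,
    mul_inv_le_iff₀ (by simp), ← WithZero.exp_add]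
  refine le_trans h1 ?_
  rw [WithZero.exp_le_exp, hM]
  simp only
  linarith

end Fermat.Agent.LT.CFT.H861

end
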