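import Mathlib
import Fermat.Agent.S54.FrobExists

/-!
# Row LT, tower CFT, helper861 (OFF-MAIN): Frobenius elements of `G_K` at the finite places

`K` a number field, `j : K →+* ℚ̄`.  For every finite place `v` of `K` there are a valuation subring
`A` of `ℚ̄` over `v` and `σ ∈ Gal(ℚ̄/ℚ)` fixing `j K` which is a Frobenius element at `A` for
`q = #(𝓞 K ⧸ v)` (Prelude `ValuationSubring.IsFrobeniusAt`).

Imports: Mathlib + the landed `Fermat.Agent.S54.FrobExists` (plain module on main).
`exists_frob_abstract861` is a renamed copy of `S55.G.Rec.H931.L2_exists_frob_abstract` (main).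
-/

set_option autoImplicit false
set_option linter.style.haveILetI false

open IsDedekindDomain NumberField
open scoped Pointwise

noncomputable section

namespace Fermat.Agent.LT.CFT.H861

local notation "Qb" => AlgebraicClosure ℚ
local notation "GQ" => (AlgebraicClosure ℚ ≃ₐ[ℚ] AlgebraicClosure ℚ)

/-- Abstract existence of Frobenius lifts for a profinite group acting continuously on a
(discrete) ring `B`, relative to the subring of invariants. -/
theorem exists_frob_abstract861 {B : Type*} [CommRing B] {G : Type*} [Group G]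
    [MulSemiringAction G B] [TopologicalSpace G] [CompactSpace G] [TotallyDisconnectedSpace G]
    [IsTopologicalGroup G]
    (hcont : letI : TopologicalSpace B := ⊥; ContinuousSMul G B)
    (Q : Ideal B) [Q.IsPrime] (p : ℕ) (hp : p.Prime) (hpQ : (p : B) ∈ Q) (f : ℕ)
    (hfix : ∀ a : B, (∀ g : G, g • a = a) → a ^ (p ^ f) - a ∈ Q)
    (hsurj : ∀ b : B, ∃ c : B, c ^ (p ^ f) - b ∈ Q) :
    ∃ σ : G, ∀ x : B, σ • x - x ^ (p ^ f) ∈ Q := by
  letI : TopologicalSpace B := ⊥
  haveI : DiscreteTopology B := ⟨rfl⟩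
  haveI := hcont
  haveI : Fact p.Prime := ⟨hp⟩
  let A := FixedPoints.subring B G
  haveI : Algebra.IsInvariant A B G := ⟨fun b hb => ⟨⟨b, hb⟩, rfl⟩⟩
  let P : Ideal A := Q.under A
  haveI : Q.LiesOver P := ⟨rfl⟩
  haveI : IsDomain (B ⧸ Q) := Ideal.Quotient.isDomain Q
  have hzero : ((p : ℕ) : B ⧸ Q) = 0 := by
    have : (Ideal.Quotient.mk Q) (p : B) = 0 := Ideal.Quotient.eq_zero_iff_mem.mpr hpQ
    simpa using this
  haveI hchar : CharP (B ⧸ Q) p := (CharP.charP_iff_prime_eq_zero hp).mpr hzero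
  let F : (B ⧸ Q) →ₐ[A ⧸ P] (B ⧸ Q) :=
    { toRingHom := iterateFrobenius (B ⧸ Q) p f
      commutes' := by
        intro y
        obtain ⟨a, rfl⟩ := Ideal.Quotient.mk_surjective y
        show iterateFrobenius _ p f (algebraMap (A ⧸ P) _ (Ideal.Quotient.mk P a)) =
          algebraMap (A ⧸ P) _ (Ideal.Quotient.mk P a)
        have h1 : algebraMap (A ⧸ P) (B ⧸ Q) (Ideal.Quotient.mk P a)
            = Ideal.Quotient.mk Q (a : B) := rfl
        rw [h1, iterateFrobenius_def, ← map_pow, ← sub_eq_zero, ← map_sub,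
          Ideal.Quotient.eq_zero_iff_mem]
        exact hfix a a.2 }
  have hinj : Function.Injective F := iterateFrobenius_inj (B ⧸ Q) p f
  have hsurj' : Function.Surjective F := by
    intro y
    obtain ⟨b, rfl⟩ := Ideal.Quotient.mk_surjective y
    obtain ⟨c, hc⟩ := hsurj b
    refine ⟨Ideal.Quotient.mk Q c, ?_⟩
    show iterateFrobenius _ p f (Ideal.Quotient.mk Q c) = _
    rw [iterateFrobenius_def, ← map_pow, ← sub_eq_zero, ← map_sub, Ideal.Quotient.eq_zero_iff_mem]
    exact hc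
  let e : (B ⧸ Q) ≃ₐ[A ⧸ P] (B ⧸ Q) := AlgEquiv.ofBijective F ⟨hinj, hsurj'⟩
  obtain ⟨σ, hσ⟩ := Ideal.Quotient.stabilizerHom_surjective_of_profinite (G := G) P Q e
  refine ⟨σ.1, fun x => ?_⟩
  have h2 := congrArg (fun t => t (Ideal.Quotient.mk Q x)) hσ
  simp only [Ideal.Quotient.stabilizerHom_apply] at h2
  have h3 : e (Ideal.Quotient.mk Q x) = Ideal.Quotient.mk Q (x ^ (p ^ f)) := by
    show iterateFrobenius _ p f (Ideal.Quotient.mk Q x) = _
    rw [iterateFrobenius_def, map_pow]
  rw [h3] at h2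
  rw [← Ideal.Quotient.eq]
  exact h2

variable {K : Type} [Field K] [NumberField K] (j : K →+* Qb)

/-- The image of `K` in `ℚ̄`. -/
def imField861 : IntermediateField ℚ Qb := (j.toRatAlgHom).fieldRange

theorem mem_imField861 (y : Qb) : y ∈ imField861 j ↔ ∃ x : K, j x = y := by
  rw [imField861, AlgHom.mem_fieldRange]
  rfl

instance finiteDimensional_imField861 : FiniteDimensional ℚ (imField861 j) := by
  have h : (imField861 j).toSubalgebra = (j.toRatAlgHom).range := rfl
  have hfin : FiniteDimensional ℚ (j.toRatAlgHom).range :=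
    LinearMap.finiteDimensional_range (j.toRatAlgHom).toLinearMap
  exact hfin

/-- The absolute Galois group of `K` (embedded by `j`). -/
def gal861 : Subgroup GQ := (imField861 j).fixingSubgroup

theorem mem_gal861_iff (σ : GQ) : σ ∈ gal861 j ↔ ∀ x : K, σ (j x) = j x := by
  rw [gal861, IntermediateField.mem_fixingSubgroup_iff]
  constructor
  · intro h x
    exact h (j x) ((mem_imField861 j _).2 ⟨x, rfl⟩)
  · intro h y hy
    obtain ⟨x, rfl⟩ := (mem_imField861 j y).1 hy
    exact h x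

theorem isClosed_gal861 : IsClosed (gal861 j : Set GQ) :=
  IntermediateField.fixingSubgroup_isClosed (imField861 j)

/-- There is a valuation subring of `ℚ̄` over every finite place of `K`. -/
theorem exists_valuationSubring_under861 (v : HeightOneSpectrum (𝓞 K)) :
    ∃ A : ValuationSubring Qb,
      ∀ x : 𝓞 K, x ∈ v.asIdeal ↔ j (algebraMap (𝓞 K) K x) ∈ A.nonunits := by
  let φ : 𝓞 K →+* Qb := j.comp (algebraMap (𝓞 K) K)
  have hφinj : Function.Injective φ :=
    j.injective.comp (FaithfulSMul.algebraMap_injective (𝓞 K) K)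
  let A₀ : Subring Qb := φ.range
  let I : Ideal A₀ := v.asIdeal.map φ.rangeRestrict
  have hsurj : Function.Surjective φ.rangeRestrict := φ.rangeRestrict_surjective
  have hI : I ≠ ⊤ := by
    intro h
    have h1 : (1 : A₀) ∈ I := by rw [h]; trivial
    obtain ⟨x, hx, hx1⟩ := (Ideal.mem_map_iff_of_surjective _ hsurj).1 h1
    have h2 : φ x = 1 := congrArg Subtype.val hx1
    have h3 : x = 1 := hφinj (by rw [h2, map_one])
    rw [h3] at hx
    exact v.isPrime.ne_top ((Ideal.eq_top_iff_one _).2 hx)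
  obtain ⟨B, hAB, hIB⟩ := Ideal.image_subset_nonunits_valuationSubring I hI
  refine ⟨B, fun x => ⟨fun hx => ?_, fun hx => ?_⟩⟩
  · apply hIB
    exact ⟨φ.rangeRestrict x, Ideal.mem_map_of_mem _ hx, rfl⟩
  · by_contra hxv
    obtain ⟨y, m, hm, hym⟩ := (inferInstance : v.asIdeal.IsMaximal).exists_inv hxv
    have hmB : φ m ∈ B.nonunits := by
      apply hIB
      exact ⟨φ.rangeRestrict m, Ideal.mem_map_of_mem _ hm, rfl⟩
    have hyB : φ y ∈ B := hAB ⟨y, rfl⟩
    have h1 : φ y * φ x + φ m = 1 := by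
      rw [← map_mul, ← map_add, hym, map_one]
    have hxB : B.valuation (φ x) < 1 := (B.mem_nonunits_iff).1 hx
    have hyB' : B.valuation (φ y) ≤ 1 := (B.valuation_le_one_iff _).2 hyB
    have hmB' : B.valuation (φ m) < 1 := (B.mem_nonunits_iff).1 hmB
    have h2 : B.valuation (φ y * φ x) < 1 := by
      rw [map_mul]
      exact mul_lt_one_of_nonneg_of_lt_one_right hyB' zero_le hxB
    have h3 : B.valuation (φ y * φ x + φ m) < 1 :=
      lt_of_le_of_lt (Valuation.map_add _ _ _) (max_lt h2 hmB')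
    rw [h1, map_one] at h3
    exact lt_irrefl _ h3

/-- The residue characteristic and the residue degree of a finite place. -/
theorem exists_card_eq_pow861 (v : HeightOneSpectrum (𝓞 K)) :
    ∃ p f : ℕ, p.Prime ∧ (p : 𝓞 K) ∈ v.asIdeal ∧ Nat.card (𝓞 K ⧸ v.asIdeal) = p ^ f ∧
      ∀ x : 𝓞 K, x ^ (p ^ f) - x ∈ v.asIdeal := by
  letI : Field (𝓞 K ⧸ v.asIdeal) := Ideal.Quotient.field v.asIdeal
  letI : Fintype (𝓞 K ⧸ v.asIdeal) := Fintype.ofFinite _
  obtain ⟨p, hp⟩ := CharP.exists (𝓞 K ⧸ v.asIdeal)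
  obtain ⟨n, hpp, hn⟩ := FiniteField.card (𝓞 K ⧸ v.asIdeal) p
  refine ⟨p, n, hpp, ?_, ?_, fun x => ?_⟩
  · rw [← Ideal.Quotient.eq_zero_iff_mem, map_natCast]
    exact CharP.cast_eq_zero _ p
  · rw [Nat.card_eq_fintype_card, hn]
  · rw [← Ideal.Quotient.eq_zero_iff_mem, map_sub, map_pow, ← hn, FiniteField.pow_card, sub_self]

end Fermat.Agent.LT.CFT.H861

end
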