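import Mathlib

/-!
# Row LT, tower CFT, helper861 (OFF-MAIN): ideles of a number field — local components

Mathlib only.  `K` a number field, `𝔸 = NumberField.AdeleRing (𝓞 K) K` (the adele ring used by
`Fermat/Agent/LT/H556/A0.lean`), ideles = `𝔸ˣ` with the units topology.

* `fc861 v x`  : the component of the idele `x` at the finite place `v`;
* `ord861 v x` : its `v`-adic order (`Valued.v (fc861 v x) = exp (- ord861 v x)`);
* finiteness of the support of `ord861 · x`; multiplicativity; values on principal ideles.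
-/

set_option autoImplicit false

open IsDedekindDomain NumberField

noncomputable section

namespace Fermat.Agent.LT.CFT.H861

variable {K : Type} [Field K] [NumberField K]

/-- The principal idele of `γ ∈ Kˣ`. -/
def pr861 (K : Type) [Field K] [NumberField K] : Kˣ →* (AdeleRing (𝓞 K) K)ˣ :=
  Units.map (algebraMap K (AdeleRing (𝓞 K) K)).toMonoidHom

/-- The component of the idele `x` at the finite place `v`. -/
def fc861 (v : HeightOneSpectrum (𝓞 K)) (x : (AdeleRing (𝓞 K) K)ˣ) : v.adicCompletion K :=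
  (x : AdeleRing (𝓞 K) K).2 v

theorem fc861_one (v : HeightOneSpectrum (𝓞 K)) : fc861 v (1 : (AdeleRing (𝓞 K) K)ˣ) = 1 := rfl

theorem fc861_mul (v : HeightOneSpectrum (𝓞 K)) (x y : (AdeleRing (𝓞 K) K)ˣ) :
    fc861 v (x * y) = fc861 v x * fc861 v y := rfl

theorem fc861_mul_inv (v : HeightOneSpectrum (𝓞 K)) (x : (AdeleRing (𝓞 K) K)ˣ) :
    fc861 v x * fc861 v x⁻¹ = 1 := by
  rw [← fc861_mul, mul_inv_cancel, fc861_one]

theorem fc861_ne_zero (v : HeightOneSpectrum (𝓞 K)) (x : (AdeleRing (𝓞 K) K)ˣ) :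
    fc861 v x ≠ 0 := fun h => by
  have := fc861_mul_inv v x
  rw [h, zero_mul] at this
  exact zero_ne_one this

theorem fc861_inv (v : HeightOneSpectrum (𝓞 K)) (x : (AdeleRing (𝓞 K) K)ˣ) :
    fc861 v x⁻¹ = (fc861 v x)⁻¹ :=
  eq_inv_of_mul_eq_one_right (fc861_mul_inv v x)

theorem fc861_pr (v : HeightOneSpectrum (𝓞 K)) (γ : Kˣ) :
    fc861 v (pr861 K γ) = ((γ : K) : v.adicCompletion K) := rfl

theorem val_fc861_ne_zero (v : HeightOneSpectrum (𝓞 K)) (x : (AdeleRing (𝓞 K) K)ˣ) :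
    Valued.v (fc861 v x) ≠ 0 :=
  (Valuation.ne_zero_iff _).2 (fc861_ne_zero v x)

theorem val_fc861_pr (v : HeightOneSpectrum (𝓞 K)) (γ : Kˣ) :
    Valued.v (fc861 v (pr861 K γ)) = v.valuation K (γ : K) := by
  rw [fc861_pr]
  exact HeightOneSpectrum.valuedAdicCompletion_eq_valuation' v (γ : K)

/-- For an idele `x`, almost all finite components have valuation `1`. -/
theorem finite_val_fc861_ne_one (x : (AdeleRing (𝓞 K) K)ˣ) :
    {v : HeightOneSpectrum (𝓞 K) | Valued.v (fc861 v x) ≠ 1}.Finite := by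
  have hu : IsUnit ((x : AdeleRing (𝓞 K) K).2) :=
    ⟨⟨(x : AdeleRing (𝓞 K) K).2, ((x⁻¹ : (AdeleRing (𝓞 K) K)ˣ) : AdeleRing (𝓞 K) K).2,
      congrArg Prod.snd x.mul_inv, congrArg Prod.snd x.inv_mul⟩, rfl⟩
  have h := (FiniteAdeleRing.isUnit_iff.1 hu).2
  rw [Filter.eventually_cofinite] at h
  exact h

/-- The `v`-adic order of the idele `x`. -/
def ord861 (v : HeightOneSpectrum (𝓞 K)) (x : (AdeleRing (𝓞 K) K)ˣ) : ℤ :=
  - WithZero.log (Valued.v (fc861 v x))

theorem val_fc861_eq_exp (v : HeightOneSpectrum (𝓞 K)) (x : (AdeleRing (𝓞 K) K)ˣ) :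
    Valued.v (fc861 v x) = WithZero.exp (- ord861 v x) := by
  rw [ord861, neg_neg, WithZero.exp_log (val_fc861_ne_zero v x)]

theorem ord861_one (v : HeightOneSpectrum (𝓞 K)) : ord861 v (1 : (AdeleRing (𝓞 K) K)ˣ) = 0 := by
  simp [ord861, fc861_one]

theorem ord861_mul (v : HeightOneSpectrum (𝓞 K)) (x y : (AdeleRing (𝓞 K) K)ˣ) :
    ord861 v (x * y) = ord861 v x + ord861 v y := by
  rw [ord861, ord861, ord861, fc861_mul, map_mul,
    WithZero.log_mul (val_fc861_ne_zero v x) (val_fc861_ne_zero v y)]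
  ring

theorem ord861_inv (v : HeightOneSpectrum (𝓞 K)) (x : (AdeleRing (𝓞 K) K)ˣ) :
    ord861 v x⁻¹ = - ord861 v x := by
  have h := ord861_mul v x x⁻¹
  rw [mul_inv_cancel, ord861_one] at h
  linarith

theorem ord861_eq_zero_iff (v : HeightOneSpectrum (𝓞 K)) (x : (AdeleRing (𝓞 K) K)ˣ) :
    ord861 v x = 0 ↔ Valued.v (fc861 v x) = 1 := by
  rw [val_fc861_eq_exp]
  constructor
  · intro h; rw [h]; simp
  · intro h
    have : WithZero.exp (- ord861 v x) = WithZero.exp (0 : ℤ) := by rw [h]; simp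
    have h2 := WithZero.exp_injective this
    linarith

theorem ord861_eq_of_val (v : HeightOneSpectrum (𝓞 K)) (x : (AdeleRing (𝓞 K) K)ˣ) (n : ℤ)
    (h : Valued.v (fc861 v x) = WithZero.exp (-n)) : ord861 v x = n := by
  rw [val_fc861_eq_exp] at h
  have := WithZero.exp_injective h
  linarith

theorem finite_ord861_ne_zero (x : (AdeleRing (𝓞 K) K)ˣ) :
    {v : HeightOneSpectrum (𝓞 K) | ord861 v x ≠ 0}.Finite := by
  refine (finite_val_fc861_ne_one x).subset fun v hv => ?_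
  simpa [ord861_eq_zero_iff] using hv

end Fermat.Agent.LT.CFT.H861

end
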