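import Fermat.Agent.LT.CFT.H861.Idele

/-!
# Row LT, tower CFT, helper861 (OFF-MAIN): the modulus `𝔣`

Mathlib only.

* `fexp861 𝔣 v`  : the exponent of `v` in `𝔣`;
* `mem_iff_forall_intValuation_le861` : `r ∈ 𝔣 ↔ ∀ v, v.intValuation r ≤ exp (- fexp861 𝔣 v)`;
* `InU861 𝔣 x`   : the idele `x` is `≡ 1 mod 𝔣` at every place dividing `𝔣`
  (no condition at the other places); stability under products and inverses;
* `cont861 ω`    : the content character `x ↦ ∏ᶠ v, ω v ^ ord_v x`.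
-/

set_option autoImplicit false

open IsDedekindDomain NumberField

noncomputable section

namespace Fermat.Agent.LT.CFT.H861

variable {K : Type} [Field K] [NumberField K]

/-- The exponent of `v` in the ideal `𝔣`. -/
def fexp861 (𝔣 : Ideal (𝓞 K)) (v : HeightOneSpectrum (𝓞 K)) : ℕ :=
  (Associates.mk v.asIdeal).count (Associates.mk 𝔣).factors

theorem fexp861_ne_zero_iff {𝔣 : Ideal (𝓞 K)} (h𝔣 : 𝔣 ≠ ⊥) (v : HeightOneSpectrum (𝓞 K)) :
    fexp861 𝔣 v ≠ 0 ↔ v.asIdeal ∣ 𝔣 :=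
  Associates.count_ne_zero_iff_dvd h𝔣 v.irreducible

theorem finite_fexp861_ne_zero {𝔣 : Ideal (𝓞 K)} (h𝔣 : 𝔣 ≠ ⊥) :
    {v : HeightOneSpectrum (𝓞 K) | fexp861 𝔣 v ≠ 0}.Finite := by
  refine (Ideal.finite_factors h𝔣).subset fun v hv => ?_
  exact (fexp861_ne_zero_iff h𝔣 v).1 hv

theorem mem_iff_forall_intValuation_le861 {𝔣 : Ideal (𝓞 K)} (h𝔣 : 𝔣 ≠ ⊥) (r : 𝓞 K) :
    r ∈ 𝔣 ↔ ∀ v : HeightOneSpectrum (𝓞 K),
      v.intValuation r ≤ WithZero.exp (-(fexp861 𝔣 v : ℤ)) := by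
  conv_lhs => rw [← Ideal.iInf_maxPowDividing_eq h𝔣]
  rw [Submodule.mem_iInf]
  refine forall_congr' fun v => ?_
  rw [HeightOneSpectrum.intValuation_le_pow_iff_mem]
  rfl

/-- The idele `x` is `≡ 1 mod 𝔣` at every finite place dividing `𝔣`. -/
def InU861 (𝔣 : Ideal (𝓞 K)) (x : (AdeleRing (𝓞 K) K)ˣ) : Prop :=
  ∀ v : HeightOneSpectrum (𝓞 K), fexp861 𝔣 v ≠ 0 →
    Valued.v (fc861 v x - 1) ≤ WithZero.exp (-(fexp861 𝔣 v : ℤ))

theorem inU861_one (𝔣 : Ideal (𝓞 K)) : InU861 𝔣 (1 : (AdeleRing (𝓞 K) K)ˣ) := by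
  intro v _
  simp [fc861_one]

theorem exp_neg_lt_one861 {n : ℕ} (hn : n ≠ 0) :
    (WithZero.exp (-(n : ℤ)) : WithZero (Multiplicative ℤ)) < 1 := by
  rw [← WithZero.exp_zero, WithZero.exp_lt_exp]
  have : 0 < (n : ℤ) := by exact_mod_cast Nat.pos_of_ne_zero hn
  linarith

theorem InU861.val_eq_one {𝔣 : Ideal (𝓞 K)} {x : (AdeleRing (𝓞 K) K)ˣ} (hx : InU861 𝔣 x)
    {v : HeightOneSpectrum (𝓞 K)} (hv : fexp861 𝔣 v ≠ 0) : Valued.v (fc861 v x) = 1 := by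
  have h1 : Valued.v (fc861 v x - 1) < 1 := lt_of_le_of_lt (hx v hv) (exp_neg_lt_one861 hv)
  have h2 : Valued.v (fc861 v x - 1) < Valued.v (1 : v.adicCompletion K) := by
    rwa [Valuation.map_one]
  have h3 := Valuation.map_add_eq_of_lt_right (Valued.v : Valuation (v.adicCompletion K) _) h2
  rw [sub_add_cancel, Valuation.map_one] at h3
  exact h3

theorem InU861.ord_eq_zero {𝔣 : Ideal (𝓞 K)} {x : (AdeleRing (𝓞 K) K)ˣ} (hx : InU861 𝔣 x)
    {v : HeightOneSpectrum (𝓞 K)} (hv : fexp861 𝔣 v ≠ 0) : ord861 v x = 0 :=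
  (ord861_eq_zero_iff v x).2 (hx.val_eq_one hv)

theorem InU861.mul {𝔣 : Ideal (𝓞 K)} {x y : (AdeleRing (𝓞 K) K)ˣ} (hx : InU861 𝔣 x)
    (hy : InU861 𝔣 y) : InU861 𝔣 (x * y) := by
  intro v hv
  have e : fc861 v (x * y) - 1 = fc861 v x * (fc861 v y - 1) + (fc861 v x - 1) := by
    rw [fc861_mul]; ring
  rw [e]
  refine le_trans (Valuation.map_add _ _ _) (max_le ?_ (hx v hv))
  rw [map_mul, hx.val_eq_one hv, one_mul]
  exact hy v hv

theorem InU861.inv {𝔣 : Ideal (𝓞 K)} {x : (AdeleRing (𝓞 K) K)ˣ} (hx : InU861 𝔣 x) :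
    InU861 𝔣 x⁻¹ := by
  intro v hv
  have hne := fc861_ne_zero v x
  have e : fc861 v x⁻¹ - 1 = -((fc861 v x - 1) * (fc861 v x)⁻¹) := by
    rw [fc861_inv]; field_simp; ring
  rw [e, Valuation.map_neg, map_mul, map_inv₀, hx.val_eq_one hv, inv_one, mul_one]
  exact hx v hv

/-! ### The content character -/

variable {A : Type*} [CommGroup A]

theorem hasFiniteMulSupport_zpow_ord861 (ω : HeightOneSpectrum (𝓞 K) → A)
    (x : (AdeleRing (𝓞 K) K)ˣ) :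
    Function.HasFiniteMulSupport fun v : HeightOneSpectrum (𝓞 K) => ω v ^ ord861 v x := by
  refine (finite_ord861_ne_zero x).subset fun v hv => ?_
  intro h0
  apply hv
  simp [h0]

/-- The content character `x ↦ ∏ᶠ v, ω v ^ ord_v x` on the ideles. -/
def cont861 (ω : HeightOneSpectrum (𝓞 K) → A) : (AdeleRing (𝓞 K) K)ˣ →* A where
  toFun x := ∏ᶠ v : HeightOneSpectrum (𝓞 K), ω v ^ ord861 v x
  map_one' := by simp [ord861_one]
  map_mul' x y := by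
    simp only [ord861_mul, zpow_add]
    exact finprod_mul_distrib (hasFiniteMulSupport_zpow_ord861 ω x)
      (hasFiniteMulSupport_zpow_ord861 ω y)

theorem cont861_apply (ω : HeightOneSpectrum (𝓞 K) → A) (x : (AdeleRing (𝓞 K) K)ˣ) :
    cont861 ω x = ∏ᶠ v : HeightOneSpectrum (𝓞 K), ω v ^ ord861 v x := rfl

theorem cont861_eq_one_of_ord (ω : HeightOneSpectrum (𝓞 K) → A) (x : (AdeleRing (𝓞 K) K)ˣ)
    (h : ∀ v, ord861 v x = 0) : cont861 ω x = 1 := by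
  rw [cont861_apply]
  simp [h]

theorem cont861_eq_single (ω : HeightOneSpectrum (𝓞 K) → A) (x : (AdeleRing (𝓞 K) K)ˣ)
    (v : HeightOneSpectrum (𝓞 K)) (h : ∀ w, w ≠ v → ord861 w x = 0) :
    cont861 ω x = ω v ^ ord861 v x := by
  rw [cont861_apply]
  exact finprod_eq_single _ v fun w hw => by simp [h w hw]

end Fermat.Agent.LT.CFT.H861

end
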