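import Fermat.Agent.LT.CFT.H861.Decomp

/-!
# Row LT, tower CFT, helper861 (OFF-MAIN): the ray condition, from integers to fractions

Mathlib only.

* `IsRay861 𝔣 ω` : the IDEAL-THEORETIC ray condition: for every nonzero `α ∈ 𝓞 K` with
  `α - 1 ∈ 𝔣`, `∏ᶠ v, ω v ^ ord_v(α) = 1` (`ord_v` = exponent of `v` in the ideal `(α)`);
* `cont861_pr_eq_one_of_inU` : then the content character `cont861 ω` is trivial on every
  principal idele `≡ 1 mod 𝔣` (fractions allowed).
-/

set_option autoImplicit false

open IsDedekindDomain NumberField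

noncomputable section

namespace Fermat.Agent.LT.CFT.H861

variable {K : Type} [Field K] [NumberField K]
variable {A : Type*} [CommGroup A]

/-- The ideal-theoretic ray condition for `ω` modulo `𝔣`. -/
def IsRay861 (𝔣 : Ideal (𝓞 K)) (ω : HeightOneSpectrum (𝓞 K) → A) : Prop :=
  ∀ α : 𝓞 K, α ≠ 0 → α - 1 ∈ 𝔣 →
    ∏ᶠ v : HeightOneSpectrum (𝓞 K),
      ω v ^ ((Associates.mk v.asIdeal).count (Associates.mk (Ideal.span {α})).factors) = 1

/-- The unit of `K` of a nonzero integer. -/
def unitOf861 (a : 𝓞 K) (ha : a ≠ 0) : Kˣ :=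
  Units.mk0 (algebraMap (𝓞 K) K a) (by simpa using ha)

theorem ord861_pr_unitOf (v : HeightOneSpectrum (𝓞 K)) (a : 𝓞 K) (ha : a ≠ 0) :
    ord861 v (pr861 K (unitOf861 a ha))
      = ((Associates.mk v.asIdeal).count (Associates.mk (Ideal.span {a})).factors : ℤ) := by
  apply ord861_eq_of_val
  rw [val_fc861_pr, unitOf861, Units.val_mk0, HeightOneSpectrum.valuation_of_algebraMap,
    v.intValuation_if_neg ha]

theorem cont861_pr_unitOf (ω : HeightOneSpectrum (𝓞 K) → A) (a : 𝓞 K) (ha : a ≠ 0) :
    cont861 ω (pr861 K (unitOf861 a ha)) = ∏ᶠ v : HeightOneSpectrum (𝓞 K),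
      ω v ^ ((Associates.mk v.asIdeal).count (Associates.mk (Ideal.span {a})).factors) := by
  rw [cont861_apply]
  refine finprod_congr fun v => ?_
  rw [ord861_pr_unitOf, zpow_natCast]

theorem val_pr861 (v : HeightOneSpectrum (𝓞 K)) (β : Kˣ) :
    v.valuation K (β : K) = WithZero.exp (-(ord861 v (pr861 K β))) := by
  rw [← val_fc861_pr, val_fc861_eq_exp]

theorem inU861_pr_iff (𝔣 : Ideal (𝓞 K)) (β : Kˣ) :
    InU861 𝔣 (pr861 K β) ↔ ∀ v : HeightOneSpectrum (𝓞 K), fexp861 𝔣 v ≠ 0 →
      v.valuation K ((β : K) - 1) ≤ WithZero.exp (-(fexp861 𝔣 v : ℤ)) := by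
  refine forall_congr' fun v => imp_congr_right fun _ => ?_
  rw [fc861_pr, ← val_coe861, coe_sub861, HeightOneSpectrum.adicCompletion.coe_one]

/-- The ray condition for fractions. -/
theorem cont861_pr_eq_one_of_inU {𝔣 : Ideal (𝓞 K)} (h𝔣 : 𝔣 ≠ ⊥)
    {ω : HeightOneSpectrum (𝓞 K) → A} (hray : IsRay861 𝔣 ω) (β : Kˣ)
    (hβ : InU861 𝔣 (pr861 K β)) : cont861 ω (pr861 K β) = 1 := by
  classical
  have hβ' := (inU861_pr_iff 𝔣 β).1 hβ
  set o : HeightOneSpectrum (𝓞 K) → ℤ := fun v => ord861 v (pr861 K β) with ho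
  -- the finite set of places
  have hT : {v : HeightOneSpectrum (𝓞 K) | o v ≠ 0}.Finite := finite_ord861_ne_zero _
  set s : Finset (HeightOneSpectrum (𝓞 K)) :=
    (finite_fexp861_ne_zero h𝔣).toFinset ∪ hT.toFinset with hs
  obtain ⟨b, hb0, hb⟩ := exists_int_approx861 s (fun v => fexp861 𝔣 v + (-(o v)).toNat)
    (fun v => if fexp861 𝔣 v ≠ 0 then 1 else 0)
  -- `b ≡ 1 mod 𝔣` locally
  have hb1 : ∀ v : HeightOneSpectrum (𝓞 K), fexp861 𝔣 v ≠ 0 →
      v.intValuation (b - 1) ≤ WithZero.exp (-(fexp861 𝔣 v : ℤ)) := by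
    intro v hv
    have hvs : v ∈ s := by
      rw [hs, Finset.mem_union, Set.Finite.mem_toFinset]; exact Or.inl hv
    have h1 := hb v hvs
    simp only [hv, ne_eq, not_false_eq_true, if_true] at h1
    refine le_trans h1 ?_
    rw [WithZero.exp_le_exp]
    push_cast
    linarith [Int.natCast_nonneg ((-(o v)).toNat)]
  -- `b β` is integral
  have hint : ∀ v : HeightOneSpectrum (𝓞 K),
      v.valuation K (algebraMap (𝓞 K) K b * (β : K)) ≤ 1 := by
    intro v
    rw [map_mul, HeightOneSpectrum.valuation_of_algebraMap, val_pr861]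
    by_cases hv : fexp861 𝔣 v ≠ 0
    · have : ord861 v (pr861 K β) = 0 := hβ.ord_eq_zero hv
      rw [this, neg_zero, WithZero.exp_zero, mul_one]
      exact v.intValuation_le_one b
    · by_cases hov : o v ≤ 0
      · by_cases hov0 : o v = 0
        · have : ord861 v (pr861 K β) = 0 := hov0
          rw [this, neg_zero, WithZero.exp_zero, mul_one]
          exact v.intValuation_le_one b
        · have hvs : v ∈ s := by
            rw [hs, Finset.mem_union, Set.Finite.mem_toFinset, Set.Finite.mem_toFinset]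
            exact Or.inr hov0
          have h1 := hb v hvs
          simp only [hv, if_false, sub_zero] at h1
          have h2 : v.intValuation b * WithZero.exp (-(ord861 v (pr861 K β)))
              ≤ WithZero.exp (-((fexp861 𝔣 v + (-(o v)).toNat : ℕ) : ℤ))
                * WithZero.exp (-(ord861 v (pr861 K β))) :=
            mul_le_mul_left h1 _
          refine le_trans h2 ?_
          rw [← WithZero.exp_add, ← WithZero.exp_zero, WithZero.exp_le_exp]
          have h3 : ((-(o v)).toNat : ℤ) = -(o v) := Int.toNat_of_nonneg (by linarith)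
          push_cast
          rw [h3]
          have h4 : ord861 v (pr861 K β) = o v := rfl
          rw [h4]
          have : (0 : ℤ) ≤ (fexp861 𝔣 v : ℤ) := Int.natCast_nonneg _
          linarith
      · have h5 : (WithZero.exp (-(ord861 v (pr861 K β))) : WithZero (Multiplicative ℤ)) ≤ 1 := by
          rw [← WithZero.exp_zero, WithZero.exp_le_exp]
          have h4 : ord861 v (pr861 K β) = o v := rfl
          rw [h4]; linarith
        calc v.intValuation b * WithZero.exp (-(ord861 v (pr861 K β)))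
            ≤ 1 * 1 := mul_le_mul' (v.intValuation_le_one b) h5
          _ = 1 := one_mul 1
  obtain ⟨α, hα⟩ := HeightOneSpectrum.mem_integers_of_valuation_le_one K
    (algebraMap (𝓞 K) K b * (β : K)) hint
  have hbK : algebraMap (𝓞 K) K b ≠ 0 := by simpa using hb0
  have hα0 : α ≠ 0 := by
    intro h0
    rw [h0, map_zero] at hα
    exact mul_ne_zero hbK β.ne_zero hα.symm
  -- `b - 1 ∈ 𝔣`
  have hbf : b - 1 ∈ 𝔣 := by
    rw [mem_iff_forall_intValuation_le861 h𝔣]
    intro v
    by_cases hv : fexp861 𝔣 v ≠ 0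
    · exact hb1 v hv
    · rw [not_not] at hv
      rw [hv]
      simpa using v.intValuation_le_one (b - 1)
  -- `α - 1 ∈ 𝔣`
  have hαf : α - 1 ∈ 𝔣 := by
    rw [mem_iff_forall_intValuation_le861 h𝔣]
    intro v
    by_cases hv : fexp861 𝔣 v ≠ 0
    · rw [← HeightOneSpectrum.valuation_of_algebraMap (K := K)]
      have e0 : algebraMap (𝓞 K) K (α - 1) = algebraMap (𝓞 K) K b * (β : K) - 1 := by
        rw [map_sub, map_one, hα]
      change v.valuation K (algebraMap (𝓞 K) K (α - 1)) ≤ _
      rw [e0]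
      have e : algebraMap (𝓞 K) K b * (β : K) - 1
          = algebraMap (𝓞 K) K b * ((β : K) - 1) + algebraMap (𝓞 K) K (b - 1) := by
        rw [map_sub, map_one]; ring
      rw [e]
      refine le_trans (Valuation.map_add _ _ _) (max_le ?_ ?_)
      · rw [map_mul]
        calc v.valuation K (algebraMap (𝓞 K) K b) * v.valuation K ((β : K) - 1)
            ≤ 1 * v.valuation K ((β : K) - 1) :=
              mul_le_mul_left (v.valuation_le_one b) _
          _ = v.valuation K ((β : K) - 1) := one_mul _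
          _ ≤ _ := hβ' v hv
      · rw [HeightOneSpectrum.valuation_of_algebraMap]
        exact hb1 v hv
    · rw [not_not] at hv
      rw [hv]
      simpa using v.intValuation_le_one (α - 1)
  -- conclusion
  have e1 : pr861 K β = pr861 K (unitOf861 α hα0) * (pr861 K (unitOf861 b hb0))⁻¹ := by
    rw [← map_inv, ← map_mul]
    congr 1
    rw [eq_mul_inv_iff_mul_eq]
    apply Units.ext
    rw [Units.val_mul, unitOf861, unitOf861, Units.val_mk0, Units.val_mk0, hα, mul_comm]
  rw [e1, map_mul, map_inv, cont861_pr_unitOf, cont861_pr_unitOf, hray α hα0 hαf,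
    hray b hb0 hbf, inv_one, mul_one]

end Fermat.Agent.LT.CFT.H861

end
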